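import Mathlib
import Fermat.Agent.S18.B12.H33.B2Regular
import Fermat.Agent.S18.B12.H278.Global

/-!
# S18 b2 / S37 RED-E (helper273): FULL NORMALITY of the special fibre, `B2NormalStatement`

Requested by row S37 (helper37, `coord/S37-b2-request.md`): same hypotheses as `B2Statement`
(`B12/Spec.lean`), but for ALL integral elements `ε = b/g` of the total fraction ring of `B/wB`
(not only idempotents), and WITHOUT assuming that `B/wB` is a domain.

* `exists_eq_smul_of_integral_eq` : abstract form over a PID `Λ` (non-domain version of A8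
  `IntClosedOfDiscrStatement`): `C` free over `Λ` with the discriminant bound of the heart at
  every prime `t`; `e ^ d + ∑ a i * e ^ i * g ^ (d - i) = 0`, `g ≠ 0` ⟹ `e = g • c`.
* `b2NormalAbs` : abstract form over `P` (setting of `B2CoreAbsStatement`).
* `b2Normal : B2NormalStatement` : the exact statement wanted by S37; `b2Normal_unfolded` the
  same with the definition unfolded; `b2_of_b2Normal : B2Statement` (the case `d = 2`).

Inputs (all on main, unconditional): `H33.b2CoreAbs` (heart A6'), `H93.regSeqAbs` (A0),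
`H203.polyInst` (A1), `H278.mem_range_of_isIntegral_of_forall_prime` (Theorem L, global form).
-/

set_option autoImplicit false
set_option linter.style.haveILetI false
set_option linter.unusedSectionVars false

noncomputable section

namespace Fermat.Agent.S18.B12.H273

open Polynomial

universe u v

/-- **b2, full normality form** (statement requested by row S37, helper37 note #4592).
`ε = b/g` satisfies `ε ^ d + ∑ a i * ε ^ i = 0` in `Frac(B/wB)` ⟹ `ε ∈ B/wB`. -/
def B2NormalStatement : Prop :=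
  ∀ (R : Type u) [CommRing R] [IsDomain R] [IsDiscreteValuationRing R] [CharZero R]
    (w : R) (_ : Irreducible w)
    (B : Type v) [CommRing B] [IsDomain B] [IsIntegrallyClosed B] [Algebra R[X] B]
    [Module.Finite R[X] B] [Module.IsTorsionFree R[X] B]
    (_ : ∃ x : Fin (Module.finrank R[X] B) → B,
        ¬ C w ∣ (Matrix.of fun i j => Algebra.intTrace R[X] B (x i * x j)).det)
    (S : Finset R) (_ : ∀ c ∈ S, ∀ c' ∈ S, c ≠ c' → IsUnit (c - c'))
    (_ : ∀ π : R[X], Prime π → ¬ Associated π (C w) → (∀ c ∈ S, ¬ Associated π (X - C c)) →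
        (Ideal.span {algebraMap R[X] B π}).IsRadical)
    (b : B) (g : R[X]), ¬ C w ∣ g →
    (∃ (d : ℕ) (a : Fin d → B),
        b ^ d + ∑ i : Fin d, a i * b ^ (i : ℕ) * algebraMap R[X] B g ^ (d - (i : ℕ)) ∈
          Ideal.span {algebraMap R[X] B (C w)}) →
      ∃ b₀ : B, b - algebraMap R[X] B g * b₀ ∈ Ideal.span {algebraMap R[X] B (C w)}

/-- Abstract version of `B2NormalStatement` (setting of `B2CoreAbsStatement`, Spec3). -/
def B2NormalAbsStatement : Prop :=
  ∀ (P : Type u) [CommRing P] [IsDomain P] [UniqueFactorizationMonoid P] [IsNoetherianRing P]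
    (w : P) (_ : Prime w) (_ : IsPrincipalIdealRing (P ⧸ Ideal.span {w}))
    (_ : IsPrincipalIdealRing (Localization.Away w))
    (_ : ∀ m : ℕ, m ≠ 0 → IsUnit (algebraMap P (Localization.Away w) (m : P)))
    (B : Type v) [CommRing B] [IsDomain B] [IsIntegrallyClosed B] [Algebra P B]
    [Module.Finite P B] [Module.IsTorsionFree P B]
    (_ : ∃ x : Fin (Module.finrank P B) → B, ¬ w ∣ intDiscr P B x)
    (S : Finset P)
    (_ : ∀ s ∈ S, Prime s ∧ ¬ Associated s w ∧ (Ideal.span {w, s}).IsMaximal ∧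
      IsPrincipalIdealRing (P ⧸ Ideal.span {s}))
    (_ : ∀ s ∈ S, ∀ s' ∈ S, s ≠ s' → s' ∉ Ideal.span {w, s})
    (_ : ∀ π : P, Prime π → ¬ Associated π w → (∀ s ∈ S, ¬ Associated π s) →
        (Ideal.span {algebraMap P B π}).IsRadical)
    (b : B) (g : P), ¬ w ∣ g →
    (∃ (d : ℕ) (a : Fin d → B),
        b ^ d + ∑ i : Fin d, a i * b ^ (i : ℕ) * algebraMap P B g ^ (d - (i : ℕ)) ∈
          Ideal.span {algebraMap P B w}) →
      ∃ b₀ : B, b - algebraMap P B g * b₀ ∈ Ideal.span {algebraMap P B w}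

/-- **Normality of a free algebra over a PID from the discriminant bounds** (non-domain form of
A8): if `e ^ d + ∑ a i * e ^ i * g ^ (d - i) = 0` with `g ≠ 0`, then `e = g • c`. -/
theorem exists_eq_smul_of_integral_eq
    {Λ : Type u} [CommRing Λ] [IsDomain Λ] [IsPrincipalIdealRing Λ]
    {C : Type v} [CommRing C] [Algebra Λ C] {n : ℕ} (bb : Module.Basis (Fin n) Λ C)
    (hloc : ∀ t : Λ, Prime t → ∃ (s : ℕ) (y : Fin s → C),
      (∀ c : C, ∃ a : Fin s → Λ,
        c - ∑ i, a i • y i ∈ (Ideal.span {algebraMap Λ C t}).radical) ∧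
      ¬ t ^ (n - s + 1) ∣ Algebra.discr Λ bb)
    (e : C) (g : Λ) (hg : g ≠ 0) (d : ℕ) (a : Fin d → C)
    (he : e ^ d + ∑ i : Fin d, a i * e ^ (i : ℕ) * algebraMap Λ C g ^ (d - (i : ℕ)) = 0) :
    ∃ c : C, e = g • c := by
  classical
  haveI : Module.Free Λ C := Module.Free.of_basis bb
  haveI : Module.Finite Λ C := Module.Finite.of_basis bb
  let L₀ := Localization (Algebra.algebraMapSubmonoid C (nonZeroDivisors Λ))
  have hinj : Function.Injective (algebraMap C L₀) :=
    Fermat.Agent.S37.H278.algebraMap_injective_of_free (o := Λ) L₀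
  have hunit : ∀ r : Λ, r ≠ 0 → IsUnit (algebraMap Λ L₀ r) := by
    intro r hr
    rw [IsScalarTower.algebraMap_apply Λ C L₀]
    exact IsLocalization.map_units L₀ (⟨algebraMap Λ C r, ⟨r, mem_nonZeroDivisors_of_ne_zero hr,
      rfl⟩⟩ : Algebra.algebraMapSubmonoid C (nonZeroDivisors Λ))
  have hL : ∀ (r : Λ) (l : L₀), r ≠ 0 → r • l = 0 → l = 0 := by
    intro r l hr h
    rw [Algebra.smul_def] at h
    exact ((hunit r hr).mul_right_eq_zero).mp h
  obtain ⟨w, hw⟩ := (hunit g hg).exists_left_inv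
  -- the fraction `ε = e / g`
  obtain ⟨ε, hε⟩ : ∃ ε : L₀, ε = w * algebraMap C L₀ e := ⟨_, rfl⟩
  have hgε : algebraMap Λ L₀ g * ε = algebraMap C L₀ e := by
    rw [hε, ← mul_assoc, mul_comm _ w, hw, one_mul]
  -- `ε` is a root of the monic polynomial `X ^ d + ∑ a i X ^ i` over `C`
  have hroot : ε ^ d + ∑ i : Fin d, algebraMap C L₀ (a i) * ε ^ (i : ℕ) = 0 := by
    have hu : IsUnit (algebraMap Λ L₀ g ^ d) := (hunit g hg).pow d
    apply (hu.mul_right_eq_zero).mp
    have h1 := congrArg (algebraMap C L₀) he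
    rw [map_zero, map_add, map_pow, map_sum] at h1
    rw [← h1, mul_add, ← mul_pow, hgε, Finset.mul_sum]
    congr 1
    refine Finset.sum_congr rfl fun i _ => ?_
    rw [map_mul, map_mul, map_pow, map_pow, ← IsScalarTower.algebraMap_apply Λ C L₀, ← hgε]
    have hi : (i : ℕ) + (d - (i : ℕ)) = d := Nat.add_sub_cancel' i.2.le
    calc algebraMap Λ L₀ g ^ d * (algebraMap C L₀ (a i) * ε ^ (i : ℕ))
        = algebraMap Λ L₀ g ^ ((i : ℕ) + (d - (i : ℕ))) * (algebraMap C L₀ (a i) * ε ^ (i : ℕ)) := by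
          rw [hi]
      _ = algebraMap C L₀ (a i) * (algebraMap Λ L₀ g * ε) ^ (i : ℕ) *
            algebraMap Λ L₀ g ^ (d - (i : ℕ)) := by
          rw [pow_add, mul_pow]; ring
  have hintC : IsIntegral C ε := by
    refine ⟨X ^ d + ∑ i : Fin d, Polynomial.C (a i) * X ^ (i : ℕ), ?_, ?_⟩
    · exact Polynomial.monic_X_pow_add (Polynomial.degree_sum_fin_lt a)
    · simp only [Polynomial.eval₂_add, Polynomial.eval₂_pow, Polynomial.eval₂_X,
        Polynomial.eval₂_finsetSum, Polynomial.eval₂_mul, Polynomial.eval₂_C]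
      exact hroot
  haveI : Algebra.IsIntegral Λ C := Algebra.IsIntegral.of_finite Λ C
  have hint : IsIntegral Λ ε := isIntegral_trans ε hintC
  have hx0 : ∃ g₀ : Λ, g₀ ≠ 0 ∧ g₀ • ε ∈ (IsScalarTower.toAlgHom Λ C L₀).range :=
    ⟨g, hg, e, by rw [Algebra.smul_def, hgε]; rfl⟩
  obtain ⟨c, hc⟩ := H278.mem_range_of_isIntegral_of_forall_prime hL
    (IsScalarTower.toAlgHom Λ C L₀) hinj bb (by simpa using hloc) ε hint hx0
  have hc' : algebraMap C L₀ c = ε := hc
  refine ⟨c, hinj ?_⟩
  rw [← hgε, ← hc', Algebra.smul_def, map_mul, ← IsScalarTower.algebraMap_apply]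

/-- **b2, full normality, abstract form** (unconditional). -/
theorem b2NormalAbs : B2NormalAbsStatement.{u, v} := by
  intro P _ _ _ _ w hw hΛ hΛ₀ hℚ B _ _ _ _ _ _ hsep S hS1 hS2 hNC b g hg hint
  obtain ⟨d, a, hd⟩ := hint
  have hJ : (Ideal.span {w}).map (algebraMap P B) = Ideal.span {algebraMap P B w} := by
    rw [Ideal.map_span, Set.image_singleton]
  haveI := hΛ
  haveI : IsDomain (P ⧸ Ideal.span {w}) := by
    rw [Ideal.Quotient.isDomain_iff_prime]
    exact (Ideal.span_singleton_prime hw.ne_zero).mpr hw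
  haveI tf := H33.isTorsionFree_quotient (B := B) H93.regSeqAbs w hw
  haveI : Module.Finite (P ⧸ Ideal.span {w}) (B ⧸ (Ideal.span {w}).map (algebraMap P B)) :=
    Module.Finite.of_restrictScalars_finite P _ _
  haveI : Module.Free (P ⧸ Ideal.span {w}) (B ⧸ (Ideal.span {w}).map (algebraMap P B)) :=
    Module.free_of_finite_type_torsion_free'
  let bb := Module.finBasis (P ⧸ Ideal.span {w}) (B ⧸ (Ideal.span {w}).map (algebraMap P B))
  have hcore' := H33.b2CoreAbs P w hw hΛ hΛ₀ hℚ B hsep S hS1 hS2 hNC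
  have hg' : Ideal.Quotient.mk (Ideal.span {w}) g ≠ 0 := fun h =>
    hg (Ideal.mem_span_singleton.mp (Ideal.Quotient.eq_zero_iff_mem.mp h))
  have halg : ∀ r : P, algebraMap (P ⧸ Ideal.span {w}) (B ⧸ (Ideal.span {w}).map (algebraMap P B))
      (Ideal.Quotient.mk (Ideal.span {w}) r)
      = Ideal.Quotient.mk ((Ideal.span {w}).map (algebraMap P B)) (algebraMap P B r) :=
    fun r => rfl
  have he : Ideal.Quotient.mk ((Ideal.span {w}).map (algebraMap P B)) b ^ d +
      ∑ i : Fin d, Ideal.Quotient.mk ((Ideal.span {w}).map (algebraMap P B)) (a i) *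
        Ideal.Quotient.mk ((Ideal.span {w}).map (algebraMap P B)) b ^ (i : ℕ) *
        algebraMap (P ⧸ Ideal.span {w}) (B ⧸ (Ideal.span {w}).map (algebraMap P B))
          (Ideal.Quotient.mk (Ideal.span {w}) g) ^ (d - (i : ℕ)) = 0 := by
    rw [← hJ] at hd
    have h1 := Ideal.Quotient.eq_zero_iff_mem.mpr hd
    rw [map_add, map_pow, map_sum] at h1
    rw [← h1]
    congr 1
  obtain ⟨c, hc⟩ := exists_eq_smul_of_integral_eq bb (fun t ht => (hcore' t ht _ bb).2)
    _ _ hg' d _ he
  obtain ⟨b₀, rfl⟩ := Ideal.Quotient.mk_surjective c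
  refine ⟨b₀, ?_⟩
  rw [← hJ, ← Ideal.Quotient.eq_zero_iff_mem, map_sub, map_mul, hc, Algebra.smul_def, halg,
    sub_self]

/-- **b2, full normality** (unconditional): the exact statement requested by row S37. -/
theorem b2Normal : B2NormalStatement.{u, v} := by
  intro R _ _ _ _ w hw B _ _ _ _ _ _ hsep S hS hNC b g hg hint
  obtain ⟨hCw, hΛ, hΛ₀, hℚ, hc⟩ := H203.polyInst R w hw
  classical
  have hS1' : ∀ s ∈ S.image (fun c => (X - C c : R[X])), Prime s ∧ ¬ Associated s (C w) ∧
      (Ideal.span {(C w : R[X]), s}).IsMaximal ∧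
      IsPrincipalIdealRing (R[X] ⧸ Ideal.span {s}) := by
    intro s hs
    obtain ⟨c, -, rfl⟩ := Finset.mem_image.mp hs
    obtain ⟨h1, h2, h3, h4, -⟩ := hc c
    exact ⟨h1, h2, h3, h4⟩
  have hS2' : ∀ s ∈ S.image (fun c => (X - C c : R[X])),
      ∀ s' ∈ S.image (fun c => (X - C c : R[X])), s ≠ s' →
      s' ∉ Ideal.span {(C w : R[X]), s} := by
    intro s hs s' hs' hne hmem
    obtain ⟨c, hcS, rfl⟩ := Finset.mem_image.mp hs
    obtain ⟨c', hcS', rfl⟩ := Finset.mem_image.mp hs'
    have hcc : c ≠ c' := fun h => hne (by rw [h])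
    exact (hc c).2.2.2.2 c' hmem (hS c hcS c' hcS' hcc)
  have hNC' : ∀ π : R[X], Prime π → ¬ Associated π (C w) →
      (∀ s ∈ S.image (fun c => (X - C c : R[X])), ¬ Associated π s) →
      (Ideal.span {algebraMap R[X] B π}).IsRadical := by
    intro π hπ hπw hπS
    exact hNC π hπ hπw (fun c hcS => hπS _ (Finset.mem_image_of_mem _ hcS))
  exact b2NormalAbs R[X] (C w) hCw hΛ hΛ₀ hℚ B hsep (S.image (fun c => (X - C c : R[X])))
    hS1' hS2' hNC' b g hg hint

/-- `b2Normal` with the definition unfolded (no need to import the `def`). -/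
theorem b2Normal_unfolded
    (R : Type u) [CommRing R] [IsDomain R] [IsDiscreteValuationRing R] [CharZero R]
    (w : R) (hw : Irreducible w)
    (B : Type v) [CommRing B] [IsDomain B] [IsIntegrallyClosed B] [Algebra R[X] B]
    [Module.Finite R[X] B] [Module.IsTorsionFree R[X] B]
    (hsep : ∃ x : Fin (Module.finrank R[X] B) → B,
        ¬ C w ∣ (Matrix.of fun i j => Algebra.intTrace R[X] B (x i * x j)).det)
    (S : Finset R) (hS : ∀ c ∈ S, ∀ c' ∈ S, c ≠ c' → IsUnit (c - c'))
    (hNC : ∀ π : R[X], Prime π → ¬ Associated π (C w) → (∀ c ∈ S, ¬ Associated π (X - C c)) →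
        (Ideal.span {algebraMap R[X] B π}).IsRadical)
    (b : B) (g : R[X]) (hg : ¬ C w ∣ g)
    (hint : ∃ (d : ℕ) (a : Fin d → B),
        b ^ d + ∑ i : Fin d, a i * b ^ (i : ℕ) * algebraMap R[X] B g ^ (d - (i : ℕ)) ∈
          Ideal.span {algebraMap R[X] B (C w)}) :
    ∃ b₀ : B, b - algebraMap R[X] B g * b₀ ∈ Ideal.span {algebraMap R[X] B (C w)} :=
  b2Normal R w hw B hsep S hS hNC b g hg hint

/-- **O2 = `B2Statement`** (idempotent form, Spec.lean) is the case `d = 2`, `a = (0, -g)`. -/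
theorem b2_of_b2Normal : B2Statement.{u, v} := by
  intro R _ _ _ _ w hw B _ _ _ _ _ _ hsep S hS hNC b g hg hb
  refine b2Normal R w hw B hsep S hS hNC b g hg ⟨2, ![0, -1], ?_⟩
  have : b ^ 2 + ∑ i : Fin 2, (![0, -1] : Fin 2 → B) i * b ^ (i : ℕ) *
      algebraMap R[X] B g ^ (2 - (i : ℕ)) = b ^ 2 - algebraMap R[X] B g * b := by
    simp [Fin.sum_univ_two]
    ring
  rw [this]
  exact hb

end Fermat.Agent.S18.B12.H273
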